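import Fermat.Agent.LT.T6.H888.ArchClassSpec

/-!
# Row LT, tower T6, leaf T6.22.A1 `MtContC888` (helper263), OFF-MAIN

`mtContC263 : H888.MtContC888`, the frozen Prop of `LT/T6/H888/ArchClassSpec.lean` (helper888,
sha256 9a3f1734; byte-identical copy, with `LT/T6/SpecArch.lean` 003240b2 and `LT/T6/Spec.lean`
v3 8c5f2ae7 of helper22).  Mathlib only otherwise.

Proof.  `Y t θ = k_θ diag(e^{t/2}, e^{-t/2}) k_θ⁻¹` is a jointly continuous map `ℝ × ℝ → GL₂(ℝ)`
(units topology), `Y 0 θ = 1`.  For `e x₀ ≠ 0` put `M t = ∫₀^{2π} e (x₀ Y t θ) dθ`, continuous on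
`ℝ` (parametric interval integral), `M 0 = 2π e x₀`, and `M t = 2π m(t) e x₀` for `t > 0`.  So
`mtOf888 n m = M / (2π e x₀) / nrm888 n` on `[0, ∞)`.
-/

set_option autoImplicit false

open MeasureTheory

noncomputable section

namespace Fermat.Agent.LT.T6.H263

open Fermat.Agent.LT.T6 Fermat.Agent.LT.T6.H888

theorem rot_mul263 (θ : ℝ) :
    (!![Real.cos θ, -Real.sin θ; Real.sin θ, Real.cos θ] : Matrix (Fin 2) (Fin 2) ℝ)
      * !![Real.cos θ, Real.sin θ; -Real.sin θ, Real.cos θ] = 1 := by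
  have h := Real.cos_sq_add_sin_sq θ
  rw [Matrix.mul_fin_two, Matrix.one_fin_two]
  ext i j
  fin_cases i <;> fin_cases j <;> simp <;> first | ring1 | linear_combination h

theorem rot_mul263' (θ : ℝ) :
    (!![Real.cos θ, Real.sin θ; -Real.sin θ, Real.cos θ] : Matrix (Fin 2) (Fin 2) ℝ)
      * !![Real.cos θ, -Real.sin θ; Real.sin θ, Real.cos θ] = 1 := by
  have h := Real.cos_sq_add_sin_sq θ
  rw [Matrix.mul_fin_two, Matrix.one_fin_two]
  ext i j
  fin_cases i <;> fin_cases j <;> simp <;> first | ring1 | linear_combination h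

theorem diag_mul263 (t : ℝ) :
    (!![Real.exp (t / 2), 0; 0, Real.exp (-(t / 2))] : Matrix (Fin 2) (Fin 2) ℝ)
      * !![Real.exp (-(t / 2)), 0; 0, Real.exp (t / 2)] = 1 := by
  have h1 : Real.exp (t / 2) * Real.exp (-(t / 2)) = 1 := by
    rw [← Real.exp_add, add_neg_cancel, Real.exp_zero]
  have h2 : Real.exp (-(t / 2)) * Real.exp (t / 2) = 1 := by
    rw [mul_comm]
    exact h1
  rw [Matrix.mul_fin_two, Matrix.one_fin_two]
  ext i j
  fin_cases i <;> fin_cases j <;> simp [h1, h2]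

theorem diag_mul263' (t : ℝ) :
    (!![Real.exp (-(t / 2)), 0; 0, Real.exp (t / 2)] : Matrix (Fin 2) (Fin 2) ℝ)
      * !![Real.exp (t / 2), 0; 0, Real.exp (-(t / 2))] = 1 := by
  have h1 : Real.exp (t / 2) * Real.exp (-(t / 2)) = 1 := by
    rw [← Real.exp_add, add_neg_cancel, Real.exp_zero]
  have h2 : Real.exp (-(t / 2)) * Real.exp (t / 2) = 1 := by
    rw [mul_comm]
    exact h1
  rw [Matrix.mul_fin_two, Matrix.one_fin_two]
  ext i j
  fin_cases i <;> fin_cases j <;> simp [h1, h2]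

/-- The rotation `k_θ` as an element of `GL₂(ℝ)`. -/
def rotG263 (θ : ℝ) : GL (Fin 2) ℝ :=
  ⟨!![Real.cos θ, -Real.sin θ; Real.sin θ, Real.cos θ],
    !![Real.cos θ, Real.sin θ; -Real.sin θ, Real.cos θ], rot_mul263 θ, rot_mul263' θ⟩

/-- The diagonal element `diag(e^{t/2}, e^{-t/2})` of `GL₂(ℝ)`. -/
def diagG263 (t : ℝ) : GL (Fin 2) ℝ :=
  ⟨!![Real.exp (t / 2), 0; 0, Real.exp (-(t / 2))],
    !![Real.exp (-(t / 2)), 0; 0, Real.exp (t / 2)], diag_mul263 t, diag_mul263' t⟩

/-- `Y t θ = k_θ diag(e^{t/2}, e^{-t/2}) k_θ⁻¹`. -/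
def circY263 (t θ : ℝ) : GL (Fin 2) ℝ := rotG263 θ * diagG263 t * (rotG263 θ)⁻¹

theorem circY_val263 (t θ : ℝ) :
    ((circY263 t θ : GL (Fin 2) ℝ) : Matrix (Fin 2) (Fin 2) ℝ)
      = !![Real.cos θ, -Real.sin θ; Real.sin θ, Real.cos θ]
        * !![Real.exp (t / 2), 0; 0, Real.exp (-(t / 2))]
        * !![Real.cos θ, Real.sin θ; -Real.sin θ, Real.cos θ] := rfl

theorem diagG_zero263 : diagG263 0 = 1 := by
  apply Units.ext
  show (!![Real.exp (0 / 2), 0; 0, Real.exp (-(0 / 2))] : Matrix (Fin 2) (Fin 2) ℝ) = 1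
  rw [Matrix.one_fin_two]
  simp

theorem circY_zero263 (θ : ℝ) : circY263 0 θ = 1 := by
  unfold circY263
  rw [diagG_zero263, mul_one, mul_inv_cancel]

theorem continuous_rotG263 : Continuous rotG263 := by
  rw [Units.continuous_iff]
  refine ⟨continuous_matrix (fun i j => ?_), continuous_matrix (fun i j => ?_)⟩
  · show Continuous fun θ : ℝ =>
      (!![Real.cos θ, -Real.sin θ; Real.sin θ, Real.cos θ] : Matrix (Fin 2) (Fin 2) ℝ) i j
    fin_cases i <;> fin_cases j <;> simp <;> fun_prop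
  · show Continuous fun θ : ℝ =>
      (!![Real.cos θ, Real.sin θ; -Real.sin θ, Real.cos θ] : Matrix (Fin 2) (Fin 2) ℝ) i j
    fin_cases i <;> fin_cases j <;> simp <;> fun_prop

theorem continuous_diagG263 : Continuous diagG263 := by
  rw [Units.continuous_iff]
  refine ⟨continuous_matrix (fun i j => ?_), continuous_matrix (fun i j => ?_)⟩
  · show Continuous fun t : ℝ =>
      (!![Real.exp (t / 2), 0; 0, Real.exp (-(t / 2))] : Matrix (Fin 2) (Fin 2) ℝ) i j
    fin_cases i <;> fin_cases j <;> simp <;> fun_prop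
  · show Continuous fun t : ℝ =>
      (!![Real.exp (-(t / 2)), 0; 0, Real.exp (t / 2)] : Matrix (Fin 2) (Fin 2) ℝ) i j
    fin_cases i <;> fin_cases j <;> simp <;> fun_prop

theorem continuous_circY263 : Continuous (fun p : ℝ × ℝ => circY263 p.1 p.2) := by
  unfold circY263
  exact ((continuous_rotG263.comp continuous_snd).mul
    (continuous_diagG263.comp continuous_fst)).mul
      ((continuous_rotG263.comp continuous_snd).inv)

theorem nrm_pos263 (n : ℤ) (t : ℝ) : 0 < nrm888 n t := by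
  unfold nrm888
  split_ifs
  · exact one_pos
  · exact Real.cosh_pos _

theorem nrm_zero263 (n : ℤ) : nrm888 n 0 = 1 := by
  unfold nrm888
  split_ifs
  · rfl
  · rw [zero_div, Real.cosh_zero]

theorem continuous_nrm263 (n : ℤ) : Continuous (nrm888 n) := by
  unfold nrm888
  split_ifs
  · exact continuous_const
  · exact Real.continuous_cosh.comp (continuous_id.div_const 2)

/-- **T6.22.A1 `MtContC888`**, verbatim. -/
theorem mtContC263 : MtContC888 := by
  intro n _ e m h
  obtain ⟨x₀, hx₀⟩ := h.ne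
  have hpi : ((2 * Real.pi : ℝ) : ℂ) ≠ 0 := by
    rw [Complex.ofReal_ne_zero]
    positivity
  -- the continuous function `M`
  have hjoint : Continuous (Function.uncurry (fun t θ : ℝ => e (x₀ * circY263 t θ))) :=
    h.cont.comp (continuous_const.mul continuous_circY263)
  have hM : Continuous (fun t : ℝ => ∫ θ in (0 : ℝ)..(2 * Real.pi), e (x₀ * circY263 t θ)) :=
    intervalIntegral.continuous_parametric_intervalIntegral_of_continuous' hjoint 0 (2 * Real.pi)
  have hM0 : (∫ θ in (0 : ℝ)..(2 * Real.pi), e (x₀ * circY263 0 θ))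
      = ((2 * Real.pi : ℝ) : ℂ) * e x₀ := by
    simp only [circY_zero263, mul_one]
    rw [intervalIntegral.integral_const, sub_zero, Complex.real_smul]
  have hMt : ∀ t : ℝ, 0 < t → (∫ θ in (0 : ℝ)..(2 * Real.pi), e (x₀ * circY263 t θ))
      = ((2 * Real.pi : ℝ) : ℂ) * m t * e x₀ :=
    fun t ht => h.eig t ht (circY263 t) (fun θ => circY_val263 t θ) x₀
  -- the candidate
  have hF : Continuous (fun t : ℝ =>
      (∫ θ in (0 : ℝ)..(2 * Real.pi), e (x₀ * circY263 t θ)) / (((2 * Real.pi : ℝ) : ℂ) * e x₀)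
        / ((nrm888 n t : ℝ) : ℂ)) := by
    refine (hM.div_const _).div (Complex.continuous_ofReal.comp (continuous_nrm263 n)) ?_
    intro t
    rw [Complex.ofReal_ne_zero]
    exact (nrm_pos263 n t).ne'
  refine hF.continuousOn.congr ?_
  intro t ht
  have ht' : (0 : ℝ) ≤ t := ht
  unfold mtOf888
  beta_reduce
  rcases ht'.lt_or_eq with hpos | hzero
  · rw [if_pos hpos, hMt t hpos]
    congr 1
    field_simp
  · subst hzero
    rw [if_neg (lt_irrefl _), hM0, nrm_zero263, Complex.ofReal_one, div_one,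
      div_self (mul_ne_zero hpi hx₀)]

end Fermat.Agent.LT.T6.H263

end
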